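import Fermat.Agent.S41.IH.Col
import Fermat.Agent.GR.B.LatMain

/-!
# S41, module I, file 5: finitely many detecting elements, the modulus `c₀` and the exponent `m`
-/

set_option autoImplicit false

open CongruenceSubgroup Matrix.SpecialLinearGroup
open scoped MatrixGroups

namespace Fermat.Agent.S41.IH

open Fermat.Agent.GR.B Fermat.Agent.S41 OnePoint

variable {N : ℕ} {B : Type*} [AddCommGroup B]

/-- the lower unipotent element `[[1,0],[N,1]]`. -/
def Detect_low (N : ℕ) : Gamma0 N :=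
  ⟨⟨!![1, 0; (N : ℤ), 1], by simp [Matrix.det_fin_two_of]⟩,
    mem_Gamma0_of_dvd (by
      change (N : ℤ) ∣ (N : ℤ)
      exact dvd_rfl)⟩

theorem Detect_low_kills {N : ℕ} {B : Type*} [AddCommGroup B] {ψ : Additive (Gamma0 N) →+ B}
    (hψ : Kills ψ) : ψ (Additive.ofMul (Detect_low N)) = 0 := by
  apply hψ
  right
  change (!![1, 0; (N : ℤ), 1] : Matrix (Fin 2) (Fin 2) ℤ).trace ^ 2 = 4
  rw [Matrix.trace_fin_two_of]
  norm_num

theorem Detect_low_mul_10 {N : ℕ} (g : Gamma0 N) :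
    ((Detect_low N * g : Gamma0 N) : SL(2, ℤ)) 1 0 =
      (N : ℤ) * (g : SL(2, ℤ)) 0 0 + (g : SL(2, ℤ)) 1 0 := by
  rw [Subgroup.coe_mul, sl2_mul_apply]
  change (N : ℤ) * _ + 1 * _ = _
  rw [one_mul]

/-- the dual basis is realised by elements of the group. -/
theorem Detect_exists_dual {N : ℕ} (U : UnivBasis N) (i : Fin U.r) :
    ∃ g : Gamma0 N, ∀ j, U.Φ j (Additive.ofMul g) = if j = i then 1 else 0 := by
  classical
  let Ψ : Additive (Gamma0 N) →+ (Fin U.r → ℤ) := AddMonoidHom.pi U.Φ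
  let b' : Fin U.r → (Fin U.r → ℤ) ⧸ Ψ.range := fun k => QuotientAddGroup.mk (Pi.single k 1)
  obtain ⟨b, -, huniq⟩ := U.univ ((Fin U.r → ℤ) ⧸ Ψ.range) 0 (fun _ _ => rfl)
  have h0 : (0 : Fin U.r → (Fin U.r → ℤ) ⧸ Ψ.range) = b := by
    apply huniq
    intro γ
    simp
  have h1 : b' = b := by
    apply huniq
    intro γ
    have h2 : ∑ k, U.Φ k γ • b' k = QuotientAddGroup.mk (Ψ γ) := by
      have h3 : Ψ γ = ∑ k, U.Φ k γ • (Pi.single k 1 : Fin U.r → ℤ) := by
        ext j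
        change U.Φ j γ = _
        simp [Finset.sum_apply, Pi.single_apply]
      rw [h3]
      change _ = QuotientAddGroup.mk' Ψ.range _
      rw [map_sum]
      refine Finset.sum_congr rfl fun k _ => ?_
      rw [map_zsmul]
      rfl
    rw [h2, AddMonoidHom.zero_apply, eq_comm, QuotientAddGroup.eq_zero_iff]
    exact ⟨γ, rfl⟩
  have h4 : b' i = 0 := by
    rw [h1, ← h0]
    rfl
  obtain ⟨γ, hγ⟩ := (QuotientAddGroup.eq_zero_iff _).1 h4
  refine ⟨Additive.toMul γ, fun j => ?_⟩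
  have := congrFun hγ j
  rw [Pi.single_apply] at this
  exact this

/-- finitely many elements of `Γ₀(N)`, with lower left entry prime to `q`, detect the
homomorphisms killing elliptic and parabolic elements (`GR.B.univBasis`: the map
`γ ↦ (Φ i γ)_i` is onto `ℤ^r`; multiply by `[[1,0],[N,1]]` if `q ∣ c`). -/
theorem exists_detecting (N : ℕ) [NeZero N] {q : ℕ} (hq : q.Prime) (hqN : ¬ q ∣ N) :
    ∃ (r : ℕ) (g : Fin r → Gamma0 N), (∀ i, ¬ (q : ℤ) ∣ (g i : SL(2, ℤ)) 1 0) ∧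
      ∀ (B : Type) [AddCommGroup B] (ψ : Additive (Gamma0 N) →+ B), Kills ψ →
        (∀ i, ψ (Additive.ofMul (g i)) = 0) → ψ = 0 := by
  classical
  have hq' : Prime (q : ℤ) := Nat.prime_iff_prime_int.1 hq
  choose g₀ hg₀ using Detect_exists_dual (univBasis N)
  refine ⟨(univBasis N).r,
    fun i => if (q : ℤ) ∣ (g₀ i : SL(2, ℤ)) 1 0 then Detect_low N * g₀ i else g₀ i, ?_, ?_⟩
  · intro i
    dsimp only
    split_ifs with h
    · rw [Detect_low_mul_10]
      intro h1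
      have h2 : (q : ℤ) ∣ (N : ℤ) * (g₀ i : SL(2, ℤ)) 0 0 := (dvd_add_left h).1 h1
      have h3 : (q : ℤ) ∣ (g₀ i : SL(2, ℤ)) 0 0 := by
        rcases hq'.dvd_or_dvd h2 with h4 | h4
        · exact absurd (by exact_mod_cast h4) hqN
        · exact h4
      have hdet : (g₀ i : SL(2, ℤ)) 0 0 * (g₀ i : SL(2, ℤ)) 1 1 -
          (g₀ i : SL(2, ℤ)) 0 1 * (g₀ i : SL(2, ℤ)) 1 0 = 1 := by
        have := (g₀ i : SL(2, ℤ)).det_coe
        rwa [Matrix.det_fin_two] at this
      have h5 : (q : ℤ) ∣ 1 := by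
        rw [← hdet]
        exact dvd_sub (Dvd.dvd.mul_right h3 _) (Dvd.dvd.mul_left h _)
      exact hq'.not_isUnit (isUnit_of_dvd_one h5)
    · exact h
  · intro B _ ψ hψ hg
    have hg' : ∀ i, ψ (Additive.ofMul (g₀ i)) = 0 := by
      intro i
      have h := hg i
      dsimp only at h
      split_ifs at h with h1
      · rw [ofMul_mul, map_add, Detect_low_kills hψ, zero_add] at h
        exact h
      · exact h
    obtain ⟨b, hb, -⟩ := (univBasis N).univ B ψ hψ
    have hb0 : ∀ i, b i = 0 := by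
      intro i
      have h := hb (Additive.ofMul (g₀ i))
      rw [hg' i] at h
      simp only [hg₀] at h
      rw [Finset.sum_eq_single i (fun j _ hj => by rw [if_neg hj, zero_smul])
        (fun h => absurd (Finset.mem_univ i) h), if_pos rfl, one_smul] at h
      exact h.symm
    apply AddMonoidHom.ext
    intro γ
    rw [hb γ]
    simp [hb0]

/-- arithmetic of `c₀ = ∏ |c_i|`, `m = φ(c₀)`. -/
theorem exists_modulus {q : ℕ} (hq : q.Prime) {r : ℕ} (c : Fin r → ℤ)
    (hc : ∀ i, ¬ (q : ℤ) ∣ c i) :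
    ∃ c₀ m : ℕ, 0 < c₀ ∧ 0 < m ∧ (∀ i, (c i).natAbs ∣ c₀) ∧
      ∀ i, (q : ZMod (c i).natAbs) ^ (2 * m) = 1 := by
  have hne : ∀ i, (c i).natAbs ≠ 0 := by
    intro i h
    apply hc i
    rw [Int.natAbs_eq_zero.1 h]
    exact dvd_zero _
  have hpos : 0 < ∏ i, (c i).natAbs := Finset.prod_pos fun i _ => Nat.pos_of_ne_zero (hne i)
  have hcop : Nat.Coprime q (∏ i, (c i).natAbs) := by
    apply Nat.Coprime.prod_right
    intro i _
    rw [Nat.Prime.coprime_iff_not_dvd hq]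
    intro h
    apply hc i
    exact Int.natCast_dvd.2 h
  refine ⟨∏ i, (c i).natAbs, Nat.totient (∏ i, (c i).natAbs), hpos, Nat.totient_pos.2 hpos,
    fun i => Finset.dvd_prod_of_mem (fun i => (c i).natAbs) (Finset.mem_univ i), fun i => ?_⟩
  have h1 : q ^ Nat.totient (∏ i, (c i).natAbs) ≡ 1 [MOD (c i).natAbs] :=
    (Nat.ModEq.pow_totient hcop).of_dvd
      (Finset.dvd_prod_of_mem (fun i => (c i).natAbs) (Finset.mem_univ i))
  have h2 := (ZMod.natCast_eq_natCast_iff _ _ _).2 h1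
  push_cast at h2
  rw [mul_comm, pow_mul, h2, one_pow]

end Fermat.Agent.S41.IH
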