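import Fermat.Agent.S41.IH.Col

/-!
# S41, module I, file 4b: the big sum of the Hecke relation is a sum over a fibre of
`(ℤ/cℓ)ˣ → (ℤ/c)ˣ`
-/

set_option autoImplicit false

open CongruenceSubgroup Matrix.SpecialLinearGroup
open scoped MatrixGroups

namespace Fermat.Agent.S41.IH

open Fermat.Agent.GR.B Fermat.Agent.S41 OnePoint

variable {N : ℕ} {B : Type*} [AddCommGroup B]

/-- abstract form of `sum_eq_sum_fiber`: `f` is any function on `ℤ` which is periodic mod `ℓ c`. -/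
theorem Fiber_aux (f : ℤ → B) (ℓ : ℕ) [Fact ℓ.Prime] (c : ℕ) [NeZero c] [NeZero (c * ℓ)]
    (hf : ∀ m m' : ℤ, (ℓ : ℤ) * c ∣ m' - m → f m' = f m) (a : ℤ) (ua : (ZMod c)ˣ)
    (hua : (ua : ZMod c) = (a : ZMod c)) :
    (∑ j : ZMod ℓ, if (ℓ : ℤ) ∣ a + (j.val : ℤ) * c then 0 else f (a + (j.val : ℤ) * c)) =
      ∑ x ∈ Finset.univ.filter
          (fun x : (ZMod (c * ℓ))ˣ => ZMod.unitsMap (dvd_mul_right c ℓ) x = ua),
        f (((x : ZMod (c * ℓ)).val : ℕ) : ℤ) := by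
  classical
  have hp : ℓ.Prime := Fact.out
  have hpZ : Prime (ℓ : ℤ) := Nat.prime_iff_prime_int.mp hp
  have hc0 : (c : ℤ) ≠ 0 := by exact_mod_cast NeZero.ne c
  have hcopa : IsCoprime (c : ℤ) a := by
    rw [← ZMod.coe_int_isUnit_iff_isCoprime, ← hua]
    exact ua.isUnit
  have hunit : ∀ j : ZMod ℓ, ¬ (ℓ : ℤ) ∣ a + (j.val : ℤ) * c →
      IsUnit ((a + (j.val : ℤ) * c : ℤ) : ZMod (c * ℓ)) := by
    intro j hj
    rw [ZMod.coe_int_isUnit_iff_isCoprime]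
    push_cast
    refine IsCoprime.mul_left ?_ ?_
    · exact IsCoprime.add_mul_right_right hcopa _
    · exact hpZ.coprime_iff_not_dvd.mpr hj
  have hval : ∀ z : ZMod (c * ℓ), (((z.val : ℕ) : ℤ) : ZMod (c * ℓ)) = z := by
    intro z
    rw [Int.cast_natCast, ZMod.natCast_zmod_val]
  have hcl : ((c * ℓ : ℕ) : ℤ) = (ℓ : ℤ) * c := by push_cast; ring
  have hf' : ∀ m m' : ℤ, (m : ZMod (c * ℓ)) = (m' : ZMod (c * ℓ)) → f m' = f m := by
    intro m m' h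
    apply hf
    rw [ZMod.intCast_eq_intCast_iff_dvd_sub, hcl] at h
    exact h
  have hjval : ∀ t : ℤ, (ℓ : ℤ) ∣ (((t : ZMod ℓ).val : ℕ) : ℤ) - t := by
    intro t
    rw [← ZMod.intCast_eq_intCast_iff_dvd_sub, Int.cast_natCast, ZMod.natCast_zmod_val]
  rw [Finset.sum_ite, Finset.sum_const_zero, zero_add]
  refine Finset.sum_bij (fun j hj => (hunit j (Finset.mem_filter.mp hj).2).unit) ?_ ?_ ?_ ?_
  · intro j hj
    rw [Finset.mem_filter]
    refine ⟨Finset.mem_univ _, ?_⟩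
    apply Units.ext
    rw [ZMod.unitsMap_val, IsUnit.unit_spec, hua, ZMod.cast_intCast (dvd_mul_right c ℓ)]
    push_cast
    rw [ZMod.natCast_self, mul_zero, add_zero]
  · intro j hj j' hj' h
    have h1 := congrArg (fun u : (ZMod (c * ℓ))ˣ => (u : ZMod (c * ℓ))) h
    simp only [IsUnit.unit_spec] at h1
    rw [ZMod.intCast_eq_intCast_iff_dvd_sub, hcl] at h1
    have h2 : (ℓ : ℤ) * c ∣ ((j'.val : ℤ) - (j.val : ℤ)) * c := by
      have e : a + (j'.val : ℤ) * c - (a + (j.val : ℤ) * c) = ((j'.val : ℤ) - (j.val : ℤ)) * c := by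
        ring
      rwa [e] at h1
    have h3 : (ℓ : ℤ) ∣ (j'.val : ℤ) - (j.val : ℤ) := Int.dvd_of_mul_dvd_mul_right hc0 h2
    rw [← ZMod.intCast_eq_intCast_iff_dvd_sub, Int.cast_natCast, Int.cast_natCast,
      ZMod.natCast_zmod_val, ZMod.natCast_zmod_val] at h3
    exact h3
  · intro x hx
    rw [Finset.mem_filter] at hx
    have hx1 : ((x : ZMod (c * ℓ)).cast : ZMod c) = (a : ZMod c) := by
      rw [← hua, ← hx.2, ZMod.unitsMap_val]
    have hx2 : (c : ℤ) ∣ (((x : ZMod (c * ℓ)).val : ℕ) : ℤ) - a := by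
      rw [← ZMod.intCast_eq_intCast_iff_dvd_sub, ← hx1, Int.cast_natCast, ZMod.natCast_val]
    obtain ⟨t, ht⟩ := hx2
    obtain ⟨s, hs⟩ := hjval t
    have hcong : ((a + (((t : ZMod ℓ).val : ℕ) : ℤ) * c : ℤ) : ZMod (c * ℓ)) = x := by
      rw [← hval x, ZMod.intCast_eq_intCast_iff_dvd_sub, hcl]
      refine ⟨-s, ?_⟩
      linear_combination ht - (c : ℤ) * hs
    have hnd : ¬ (ℓ : ℤ) ∣ a + (((t : ZMod ℓ).val : ℕ) : ℤ) * c := by
      intro hd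
      have hu : IsUnit ((a + (((t : ZMod ℓ).val : ℕ) : ℤ) * c : ℤ) : ZMod (c * ℓ)) := by
        rw [hcong]; exact x.isUnit
      rw [ZMod.coe_int_isUnit_iff_isCoprime] at hu
      have h4 : IsCoprime (ℓ : ℤ) (a + (((t : ZMod ℓ).val : ℕ) : ℤ) * c) := by
        push_cast at hu
        exact hu.of_mul_left_right
      exact hpZ.coprime_iff_not_dvd.mp h4 hd
    refine ⟨(t : ZMod ℓ), Finset.mem_filter.mpr ⟨Finset.mem_univ _, hnd⟩, ?_⟩
    apply Units.ext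
    rw [IsUnit.unit_spec]
    exact hcong
  · intro j hj
    apply hf'
    rw [hval, IsUnit.unit_spec]

/-- the big sum is a sum over a fibre of `(ℤ/cℓ)ˣ → (ℤ/c)ˣ`. -/
theorem sum_eq_sum_fiber {φ : Additive (Gamma0 N) →+ B} (hφ : Kills φ) (ℓ : ℕ) [Fact ℓ.Prime]
    (c : ℕ) [NeZero c] [NeZero (c * ℓ)] (hc : ¬ ℓ ∣ c) (a : ℤ) (ua : (ZMod c)ˣ)
    (hua : (ua : ZMod c) = (a : ZMod c)) :
    (∑ j : ZMod ℓ, if (ℓ : ℤ) ∣ a + (j.val : ℤ) * c then 0
        else colVal φ (a + (j.val : ℤ) * c) ((ℓ : ℤ) * c)) =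
      ∑ x ∈ Finset.univ.filter
          (fun x : (ZMod (c * ℓ))ˣ => ZMod.unitsMap (dvd_mul_right c ℓ) x = ua),
        colVal φ (((x : ZMod (c * ℓ)).val : ℕ) : ℤ) ((ℓ : ℤ) * c) := by
  exact Fiber_aux (fun m => colVal φ m ((ℓ : ℤ) * c)) ℓ c (fun _ _ h => colVal_congr hφ h) a ua hua

end Fermat.Agent.S41.IH
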