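import Fermat.Agent.S41.IH.ColT

/-!
# S41, module I, file 4a: the Hecke relation

`(T_ℓ φ)(γ_{a/c}) = ∑_{a' ∈ (ℤ/cℓ)ˣ, a' ≡ a (c)} F_{cℓ}(a') + F_c(ℓ a) + F_c(ℓ⁻¹ a)`.
-/

set_option autoImplicit false

open CongruenceSubgroup Matrix.SpecialLinearGroup
open scoped MatrixGroups

namespace Fermat.Agent.S41.IH

open Fermat.Agent.GR.B Fermat.Agent.S41 OnePoint

variable {N : ℕ} {B : Type*} [AddCommGroup B]

/-- the Hecke relation. -/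
theorem op_repsT_apply {φ : Additive (Gamma0 N) →+ B} (hφ : Kills φ) (ℓ : ℕ) [Fact ℓ.Prime]
    (hℓN : ¬ ℓ ∣ N) {γ : Gamma0 N} {a c : ℤ} (h : HasCol γ a c) (hc : ¬ (ℓ : ℤ) ∣ c)
    (a' : ℤ) (ha' : c ∣ ℓ * a' - a) :
    (repsT ℓ hℓN).op B φ (Additive.ofMul γ) =
      (∑ j : ZMod ℓ, if (ℓ : ℤ) ∣ a + (j.val : ℤ) * c then 0
        else colVal φ (a + (j.val : ℤ) * c) (ℓ * c)) + colVal φ (ℓ * a) c + colVal φ a' c := by
  classical
  have hℓ : ℓ.Prime := Fact.out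
  have hcop : IsCoprime (ℓ : ℤ) c := (Nat.prime_iff_prime_int.1 hℓ).coprime_iff_not_dvd.2 hc
  rw [Reps.op_apply]
  have hsum : ∑ i : (repsT ℓ hℓN).ι, φ (Additive.ofMul ((repsT ℓ hℓN).coc γ i)) =
      φ (Additive.ofMul ((repsT ℓ hℓN).coc γ ∞)) +
        ∑ j : ZMod ℓ, φ (Additive.ofMul ((repsT ℓ hℓN).coc γ (j : OnePoint (ZMod ℓ)))) :=
    Fintype.sum_option (fun i : Option (ZMod ℓ) => φ (Additive.ofMul ((repsT ℓ hℓN).coc γ i)))
  rw [hsum]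
  have hinf : φ (Additive.ofMul ((repsT ℓ hℓN).coc γ ∞)) = colVal φ (ℓ * a) c :=
    (colVal_eq hφ (repsT_col_infty_of_not_dvd ℓ hℓN h hc).2).symm
  have hj : ∀ j : ZMod ℓ, φ (Additive.ofMul ((repsT ℓ hℓN).coc γ (j : OnePoint (ZMod ℓ)))) =
      (if (ℓ : ℤ) ∣ a + (j.val : ℤ) * c then 0 else colVal φ (a + (j.val : ℤ) * c) (ℓ * c)) +
        (if (ℓ : ℤ) ∣ a + (j.val : ℤ) * c then colVal φ a' c else 0) := by
    intro j
    by_cases hd : (ℓ : ℤ) ∣ a + (j.val : ℤ) * c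
    · rw [if_pos hd, if_pos hd, zero_add,
        ← colVal_eq hφ (repsT_col_coe_of_dvd ℓ hℓN h j hd).2]
      symm
      apply colVal_congr hφ
      obtain ⟨m, hm⟩ := hd
      have hℓ0 : (ℓ : ℤ) ≠ 0 := by exact_mod_cast hℓ.ne_zero
      rw [hm, Int.mul_ediv_cancel_left _ hℓ0]
      apply hcop.symm.dvd_of_dvd_mul_left
      have e : (ℓ : ℤ) * (a' - m) = (ℓ * a' - a) - (j.val : ℤ) * c := by
        rw [mul_sub, ← hm]; ring
      rw [e]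
      exact dvd_sub ha' (dvd_mul_left _ _)
    · rw [if_neg hd, if_neg hd, add_zero,
        ← colVal_eq hφ (repsT_col_coe_of_not_dvd ℓ hℓN h j hd).2]
  have hc0 : ((c : ℤ) : ZMod ℓ) ≠ 0 := by
    rw [Ne, ZMod.intCast_zmod_eq_zero_iff_dvd]
    exact hc
  have hiff : ∀ j : ZMod ℓ, (ℓ : ℤ) ∣ a + (j.val : ℤ) * c ↔ j = -(a : ZMod ℓ) / (c : ZMod ℓ) := by
    intro j
    rw [← ZMod.intCast_zmod_eq_zero_iff_dvd, Int.cast_add, Int.cast_mul, Int.cast_natCast,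
      ZMod.natCast_zmod_val, eq_div_iff hc0, eq_neg_iff_add_eq_zero, add_comm]
  have hB : ∑ j : ZMod ℓ, (if (ℓ : ℤ) ∣ a + (j.val : ℤ) * c then colVal φ a' c else 0) =
      colVal φ a' c := by
    simp_rw [hiff]
    rw [Finset.sum_ite_eq' Finset.univ, if_pos (Finset.mem_univ _)]
  rw [hinf, Finset.sum_congr rfl (fun j _ => hj j), Finset.sum_add_distrib, hB]
  abel

end Fermat.Agent.S41.IH
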