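import Mathlib

/-!
# S41, module I, file 2: the orbit trick (Mathlib only)

`π : G → G'` finite commutative groups, `u₀ ∈ ker π` of order divisible by the odd prime `p`,
`f : G → B` with `f (u₀ x) = f x + κ`, `p B = 0`.  Then all sums of `f` over fibres of `π` vanish
(each `⟨u₀⟩`-orbit, of length `z`, contributes `z f(x) + κ z (z-1)/2 = 0`).
-/

set_option autoImplicit false

namespace Fermat.Agent.S41.IH

/-- sum over one orbit. -/
theorem sum_range_orbit {G B : Type*} [Group G] [AddCommGroup B] (u₀ : G) (f : G → B) (κ : B)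
    (hf : ∀ x, f (u₀ * x) = f x + κ) (p : ℕ) (hp2 : Odd p) (hB : ∀ b : B, p • b = 0)
    (z : ℕ) (hz : p ∣ z) (x : G) : ∑ k ∈ Finset.range z, f (u₀ ^ k * x) = 0 := by
  have h1 : ∀ k : ℕ, f (u₀ ^ k * x) = f x + k • κ := by
    intro k
    induction k with
    | zero => rw [pow_zero, one_mul, zero_smul, add_zero]
    | succ k ih => rw [pow_succ', mul_assoc, hf, ih, succ_nsmul, add_assoc]
  have hkill : ∀ (m : ℕ) (b : B), p ∣ m → m • b = 0 := by
    rintro m b ⟨c, rfl⟩
    rw [mul_comm, mul_smul, hB, smul_zero]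
  have h2 : p ∣ ∑ k ∈ Finset.range z, k := by
    have h3 : p ∣ (∑ k ∈ Finset.range z, k) * 2 := by
      rw [Finset.sum_range_id_mul_two]
      exact Dvd.dvd.mul_right hz _
    exact (Nat.Coprime.dvd_of_dvd_mul_right (Nat.coprime_two_right.2 hp2) h3)
  simp only [h1]
  rw [Finset.sum_add_distrib, Finset.sum_const, Finset.card_range, ← Finset.sum_smul,
    hkill z _ hz, hkill _ _ h2, add_zero]

theorem sum_fiber_eq_zero {G G' B : Type*} [CommGroup G] [Fintype G] [CommGroup G']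
    [DecidableEq G'] [AddCommGroup B] (π : G →* G') (u₀ : G) (hu₀ : π u₀ = 1) (f : G → B) (κ : B)
    (hf : ∀ x, f (u₀ * x) = f x + κ) (p : ℕ) (hp2 : Odd p) (hB : ∀ b : B, p • b = 0)
    (hz : p ∣ orderOf u₀) (u : G') :
    ∑ x ∈ Finset.univ.filter (fun x => π x = u), f x = 0 := by
  classical
  rw [← Finset.sum_fiberwise _ (fun x : G => (x : G ⧸ Subgroup.zpowers u₀))]
  refine Finset.sum_eq_zero fun q _ => ?_
  obtain ⟨x₀, rfl⟩ := QuotientGroup.mk_surjective q
  have hπ : ∀ k : ℕ, π (u₀ ^ k * x₀) = π x₀ := by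
    intro k
    rw [map_mul, map_pow, hu₀, one_pow, one_mul]
  have hmem : ∀ x : G, (x : G ⧸ Subgroup.zpowers u₀) = (x₀ : G ⧸ Subgroup.zpowers u₀) ↔
      ∃ k ∈ Finset.range (orderOf u₀), u₀ ^ k * x₀ = x := by
    intro x
    rw [eq_comm, QuotientGroup.eq, mem_zpowers_iff_mem_range_orderOf, Finset.mem_image]
    refine exists_congr fun k => and_congr_right fun _ => ?_
    rw [eq_inv_mul_iff_mul_eq, mul_comm]
  by_cases hx₀ : π x₀ = u
  · have hset : (Finset.univ.filter (fun x => π x = u)).filter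
        (fun x : G => (x : G ⧸ Subgroup.zpowers u₀) = (x₀ : G ⧸ Subgroup.zpowers u₀)) =
        (Finset.range (orderOf u₀)).image (fun k => u₀ ^ k * x₀) := by
      ext x
      rw [Finset.mem_filter, Finset.mem_filter, Finset.mem_image, hmem]
      constructor
      · exact fun h => h.2
      · rintro ⟨k, hk, rfl⟩
        exact ⟨⟨Finset.mem_univ _, (hπ k).trans hx₀⟩, k, hk, rfl⟩
    rw [hset, Finset.sum_image]
    · exact sum_range_orbit u₀ f κ hf p hp2 hB _ hz x₀
    · intro a ha b hb hab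
      have hab' : u₀ ^ a = u₀ ^ b := mul_right_cancel hab
      exact pow_injOn_Iio_orderOf (by simpa using ha) (by simpa using hb) hab'
  · refine Finset.sum_eq_zero fun x hx => ?_
    rw [Finset.mem_filter, Finset.mem_filter, hmem] at hx
    obtain ⟨⟨-, h1⟩, k, -, rfl⟩ := hx
    exact absurd ((hπ k).symm.trans h1) hx₀

/-- the order of a unit of `ℤ/cℓ` is divisible by the order of its image in `ℤ/ℓ`. -/
theorem dvd_orderOf_of_dvd_orderOf_map {c ℓ p : ℕ} (t : (ZMod (c * ℓ))ˣ)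
    (h : p ∣ orderOf (((t : ZMod (c * ℓ)).cast : ZMod ℓ))) : p ∣ orderOf t := by
  have h1 : ((t : ZMod (c * ℓ)).cast : ZMod ℓ) =
      ZMod.castHom (dvd_mul_left ℓ c) (ZMod ℓ) (t : ZMod (c * ℓ)) := rfl
  rw [h1] at h
  have h2 := orderOf_map_dvd (ZMod.castHom (dvd_mul_left ℓ c) (ZMod ℓ) : ZMod (c * ℓ) →* ZMod ℓ)
    (t : ZMod (c * ℓ))
  rw [orderOf_units] at h2
  exact h.trans h2

end Fermat.Agent.S41.IH
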