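import Fermat.Agent.S41.IH.Col
import Fermat.Agent.S41.IH.Orbit

/-!
# S41, module I, file 4c: the big sum vanishes
-/

set_option autoImplicit false

open CongruenceSubgroup Matrix.SpecialLinearGroup
open scoped MatrixGroups

namespace Fermat.Agent.S41.IH

open Fermat.Agent.GR.B Fermat.Agent.S41 OnePoint

variable {N : ℕ} {B : Type*} [AddCommGroup B]

/-- iterate `QInv`. -/
theorem colVal_pow_mul {q : ℕ} {φ : Additive (Gamma0 N) →+ B} {κ : B}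
    (hκ : ∀ a c : ℤ, (N : ℤ) ∣ c → IsCoprime a c → ¬ (q : ℤ) ∣ c →
      colVal φ ((q : ℤ) ^ 2 * a) c = colVal φ a c + κ) (hq : q.Prime) (m : ℕ) (a c : ℤ)
    (hN : (N : ℤ) ∣ c) (hac : IsCoprime a c) (hqc : ¬ (q : ℤ) ∣ c) :
    colVal φ ((q : ℤ) ^ (2 * m) * a) c = colVal φ a c + m • κ := by
  have hqc' : IsCoprime (q : ℤ) c := (Nat.prime_iff_prime_int.mp hq).coprime_iff_not_dvd.2 hqc
  induction m with
  | zero => simp
  | succ m ih =>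
    have e : (q : ℤ) ^ (2 * (m + 1)) * a = (q : ℤ) ^ 2 * ((q : ℤ) ^ (2 * m) * a) := by ring
    rw [e, hκ _ c hN (IsCoprime.mul_left hqc'.pow_left hac) hqc, ih, succ_nsmul, add_assoc]

/-- THE TRICK: the big sum vanishes. -/
theorem sum_fiber_colVal_eq_zero {φ : Additive (Gamma0 N) →+ B} (hφ : Kills φ) {q : ℕ}
    (hq : q.Prime) (hQ : QInv q φ) {p : ℕ} (hp2 : Odd p) (hB : ∀ b : B, p • b = 0)
    (ℓ : ℕ) [Fact ℓ.Prime] (hℓq : ℓ ≠ q) (c : ℕ) [NeZero c] [NeZero (c * ℓ)] (hNc : N ∣ c)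
    (hqc : ¬ q ∣ c) (m : ℕ) (hm : (q : ZMod c) ^ (2 * m) = 1)
    (hpm : p ∣ orderOf ((q : ZMod ℓ) ^ (2 * m))) (ua : (ZMod c)ˣ) :
    ∑ x ∈ Finset.univ.filter
          (fun x : (ZMod (c * ℓ))ˣ => ZMod.unitsMap (dvd_mul_right c ℓ) x = ua),
        colVal φ (((x : ZMod (c * ℓ)).val : ℕ) : ℤ) ((ℓ : ℤ) * c) = 0 := by
  obtain ⟨κ, hκ⟩ := hQ
  have hℓ : ℓ.Prime := Fact.out
  have hcop : Nat.Coprime q (c * ℓ) :=
    Nat.Coprime.mul_right ((Nat.Prime.coprime_iff_not_dvd hq).2 hqc)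
      ((Nat.coprime_primes hq hℓ).2 hℓq.symm)
  have hcast : ((ℓ : ℤ) * c) = ((c * ℓ : ℕ) : ℤ) := by push_cast; ring
  set u₀ : (ZMod (c * ℓ))ˣ := (ZMod.unitOfCoprime q hcop) ^ (2 * m) with hu₀
  have hu₀v : ((u₀ : (ZMod (c * ℓ))ˣ) : ZMod (c * ℓ)) = (q : ZMod (c * ℓ)) ^ (2 * m) := by
    rw [hu₀, Units.val_pow_eq_pow_val, ZMod.coe_unitOfCoprime]
  refine sum_fiber_eq_zero (ZMod.unitsMap (dvd_mul_right c ℓ)) u₀ ?_
    (fun x => colVal φ (((x : ZMod (c * ℓ)).val : ℕ) : ℤ) ((ℓ : ℤ) * c)) (m • κ) ?_ p hp2 hB ?_ ua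
  · apply Units.ext
    rw [ZMod.unitsMap_val, hu₀v, ← ZMod.castHom_apply (h := dvd_mul_right c ℓ), map_pow,
      map_natCast, hm, Units.val_one]
  · intro x
    have h1 : colVal φ ((((u₀ * x : (ZMod (c * ℓ))ˣ) : ZMod (c * ℓ)).val : ℕ) : ℤ) ((ℓ : ℤ) * c) =
        colVal φ ((q : ℤ) ^ (2 * m) * (((x : ZMod (c * ℓ)).val : ℕ) : ℤ)) ((ℓ : ℤ) * c) := by
      apply colVal_congr hφ
      rw [hcast, ← ZMod.intCast_eq_intCast_iff_dvd_sub]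
      push_cast
      rw [ZMod.natCast_zmod_val, ZMod.natCast_zmod_val, hu₀v]
    rw [h1]
    refine colVal_pow_mul hκ hq m _ _ ?_ ?_ ?_
    · exact Dvd.dvd.mul_left (Int.natCast_dvd_natCast.2 hNc) _
    · rw [hcast, Nat.isCoprime_iff_coprime]
      exact ZMod.val_coe_unit_coprime x
    · rw [hcast, Int.natCast_dvd_natCast]
      exact (Nat.Prime.coprime_iff_not_dvd hq).1 hcop
  · apply dvd_orderOf_of_dvd_orderOf_map
    rw [hu₀v, ← ZMod.castHom_apply (h := dvd_mul_left ℓ c), map_pow, map_natCast]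
    exact hpm

end Fermat.Agent.S41.IH
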