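import Fermat.Agent.S41.IH.Kernel
import Fermat.Agent.S41.IH.HeckeRel
import Fermat.Agent.S41.IH.Fiber
import Fermat.Agent.S41.IH.Trick
import Fermat.Agent.S41.IH.Detect

/-!
# S41, module I: the replacement of Ihara's lemma

`ihara`: there are `c₀, m ≥ 1` such that for every prime `ℓ ∤ Nq`, `ℓ ≡ 1 mod c₀`,
`p ∣ ord_ℓ(q^{2m})`, the operator `T_ℓ - 2` kills the kernel of
`res₁ + res₂ : H(Γ₀(N), 𝔽_p)² → H(Γ₀(Nq), 𝔽_p)`.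
-/

set_option autoImplicit false

open CongruenceSubgroup Matrix.SpecialLinearGroup
open scoped MatrixGroups

namespace Fermat.Agent.S41.IH

open Fermat.Agent.GR.B Fermat.Agent.S41 OnePoint

variable {N : ℕ} {B : Type*} [AddCommGroup B]

/-- the core, `c > 0`. -/
theorem op_apply_eq_two_smul_of_pos {φ : Additive (Gamma0 N) →+ B} (hφ : Kills φ) {q : ℕ}
    (hq : q.Prime) (hQ : QInv q φ) {p : ℕ} (hp2 : Odd p) (hB : ∀ b : B, p • b = 0)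
    (ℓ : ℕ) [Fact ℓ.Prime] (hℓN : ¬ ℓ ∣ N) (hℓq : ℓ ≠ q) {γ : Gamma0 N} {a : ℤ} {c : ℕ}
    (hc0 : 0 < c) (h : HasCol γ a c) (hqc : ¬ q ∣ c) (hcℓ : c ∣ ℓ - 1)
    (m : ℕ) (hm : (q : ZMod c) ^ (2 * m) = 1) (hpm : p ∣ orderOf ((q : ZMod ℓ) ^ (2 * m))) :
    (repsT ℓ hℓN).op B φ (Additive.ofMul γ) = 2 • φ (Additive.ofMul γ) := by
  have hℓ : ℓ.Prime := Fact.out
  have : NeZero c := ⟨hc0.ne'⟩
  have : NeZero (c * ℓ) := ⟨(Nat.mul_pos hc0 hℓ.pos).ne'⟩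
  have hℓc : ¬ ℓ ∣ c := by
    intro hd
    have h1 : ℓ ∣ ℓ - 1 := hd.trans hcℓ
    have h2 := Nat.le_of_dvd (Nat.sub_pos_of_lt hℓ.one_lt) h1
    have := hℓ.pos
    omega
  have hℓc' : ¬ (ℓ : ℤ) ∣ (c : ℤ) := by exact_mod_cast hℓc
  have hcℓ' : (c : ℤ) ∣ (ℓ : ℤ) - 1 := by
    have : ((ℓ - 1 : ℕ) : ℤ) = (ℓ : ℤ) - 1 := by
      rw [Nat.cast_sub hℓ.one_le]; simp
    rw [← this]
    exact_mod_cast hcℓ
  have ha' : (c : ℤ) ∣ (ℓ : ℤ) * a - a := by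
    have : (ℓ : ℤ) * a - a = ((ℓ : ℤ) - 1) * a := by ring
    rw [this]
    exact Dvd.dvd.mul_right hcℓ' a
  have hNc : N ∣ c := by exact_mod_cast hasCol_dvd h
  have hac : IsCoprime a (c : ℤ) := hasCol_isCoprime h
  obtain ⟨ua, hua⟩ : ∃ ua : (ZMod c)ˣ, (ua : ZMod c) = (a : ZMod c) := by
    obtain ⟨x, y, hxy⟩ := hac
    have h1 : ((a : ℤ) : ZMod c) * (x : ZMod c) = 1 := by
      have := congrArg (Int.cast : ℤ → ZMod c) hxy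
      push_cast at this
      rw [ZMod.natCast_self, mul_zero, add_zero] at this
      rw [mul_comm]; exact this
    exact ⟨Units.mkOfMulEqOne _ _ h1, rfl⟩
  rw [op_repsT_apply hφ ℓ hℓN h hℓc' a ha', sum_eq_sum_fiber hφ ℓ c hℓc a ua hua,
    sum_fiber_colVal_eq_zero hφ hq hQ hp2 hB ℓ hℓq c hNc hqc m hm hpm ua, zero_add,
    colVal_congr hφ ha', colVal_eq hφ h, two_smul]

/-- the core. -/
theorem op_apply_eq_two_smul {φ : Additive (Gamma0 N) →+ B} (hφ : Kills φ) {q : ℕ}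
    (hq : q.Prime) (hQ : QInv q φ) {p : ℕ} (hp2 : Odd p) (hB : ∀ b : B, p • b = 0)
    (ℓ : ℕ) [Fact ℓ.Prime] (hℓN : ¬ ℓ ∣ N) (hℓq : ℓ ≠ q) (γ : Gamma0 N)
    (hqc : ¬ (q : ℤ) ∣ (γ : SL(2, ℤ)) 1 0) (hcℓ : ((γ : SL(2, ℤ)) 1 0).natAbs ∣ ℓ - 1)
    (m : ℕ) (hm : (q : ZMod ((γ : SL(2, ℤ)) 1 0).natAbs) ^ (2 * m) = 1)
    (hpm : p ∣ orderOf ((q : ZMod ℓ) ^ (2 * m))) :
    (repsT ℓ hℓN).op B φ (Additive.ofMul γ) = 2 • φ (Additive.ofMul γ) := by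
  set a := (γ : SL(2, ℤ)) 0 0 with ha
  set c := (γ : SL(2, ℤ)) 1 0 with hc
  have h : HasCol γ a c := ⟨rfl, rfl⟩
  have hc0 : c ≠ 0 := by
    intro h0; exact hqc (h0 ▸ dvd_zero _)
  have hpos : 0 < c.natAbs := Int.natAbs_pos.mpr hc0
  have hqc' : ¬ q ∣ c.natAbs := by
    intro hd; exact hqc (Int.natCast_dvd.mpr hd)
  have hψ : Kills ((repsT ℓ hℓN).op B φ) := (repsT ℓ hℓN).op_Kills hφ
  rcases le_total 0 c with hle | hle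
  · have e : ((c.natAbs : ℕ) : ℤ) = c := Int.natAbs_of_nonneg hle
    exact op_apply_eq_two_smul_of_pos hφ hq hQ hp2 hB ℓ hℓN hℓq hpos (e.symm ▸ h) hqc' hcℓ m hm hpm
  · have e : ((c.natAbs : ℕ) : ℤ) = -c := Int.ofNat_natAbs_of_nonpos hle
    obtain ⟨γ', h'⟩ : ∃ γ' : Gamma0 N, HasCol γ' (-a) (-c) :=
      exists_hasCol ((dvd_neg).mpr (hasCol_dvd h)) ((hasCol_isCoprime h).neg_neg)
    have h1 := op_apply_eq_two_smul_of_pos hφ hq hQ hp2 hB ℓ hℓN hℓq hpos (e.symm ▸ h') hqc' hcℓ m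
      hm hpm
    rw [← colVal_eq hψ h', ← colVal_eq hφ h', colVal_neg hψ, colVal_neg hφ, colVal_eq hψ h,
      colVal_eq hφ h] at h1
    exact h1

/-- **Replacement of Ihara's lemma.** -/
theorem ihara (N : ℕ) [NeZero N] (p q : ℕ) [Fact p.Prime] [Fact q.Prime] (hp2 : p ≠ 2)
    (hqN : ¬ q ∣ N) :
    ∃ c₀ m : ℕ, 0 < c₀ ∧ 0 < m ∧ ∀ (ℓ : ℕ) [Fact ℓ.Prime] (hℓN : ¬ ℓ ∣ N), ℓ ≠ q →
      ((ℓ : ℕ) : ZMod c₀) = 1 → p ∣ orderOf ((q : ZMod ℓ) ^ (2 * m)) →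
      ∀ φ₁ φ₂ : Additive (Gamma0 N) →+ ZMod p, Kills φ₁ → Kills φ₂ →
        (haveI : NeZero q := ⟨(Fact.out : q.Prime).ne_zero⟩; InKer q φ₁ φ₂) →
        (repsT ℓ hℓN).op (ZMod p) φ₁ = 2 • φ₁ ∧ (repsT ℓ hℓN).op (ZMod p) φ₂ = 2 • φ₂ := by
  have hq : q.Prime := Fact.out
  have hp : p.Prime := Fact.out
  obtain ⟨r, g, hg, hdet⟩ := exists_detecting N hq hqN
  obtain ⟨c₀, m, hc₀, hm, hdvd, hpow⟩ := exists_modulus hq (fun i => (g i : SL(2, ℤ)) 1 0) hg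
  refine ⟨c₀, m, hc₀, hm, ?_⟩
  intro ℓ _ hℓN hℓq hℓ1 hpm φ₁ φ₂ h₁ h₂ hker
  have hℓ : ℓ.Prime := Fact.out
  have hodd : Odd p := hp.odd_of_ne_two hp2
  have hB : ∀ b : ZMod p, p • b = 0 := by
    intro b
    rw [nsmul_eq_mul, ZMod.natCast_self, zero_mul]
  obtain ⟨hQ₁, hQ₂⟩ := qInv_of_inKer hqN h₁ h₂ hker
  have hc₀ℓ : c₀ ∣ ℓ - 1 := by
    have : ((ℓ - 1 : ℕ) : ZMod c₀) = 0 := by
      rw [Nat.cast_sub hℓ.one_le, hℓ1]; simp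
    exact (ZMod.natCast_eq_zero_iff _ _).mp this
  have key : ∀ φ : Additive (Gamma0 N) →+ ZMod p, Kills φ → QInv q φ →
      (repsT ℓ hℓN).op (ZMod p) φ = 2 • φ := by
    intro φ hφ hQ
    have hψ : Kills ((repsT ℓ hℓN).op (ZMod p) φ - 2 • φ) := by
      intro γ hγ
      rw [AddMonoidHom.sub_apply, AddMonoidHom.nsmul_apply, (repsT ℓ hℓN).op_Kills hφ γ hγ,
        hφ γ hγ]
      simp
    have := hdet (ZMod p) _ hψ (fun i => by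
      rw [AddMonoidHom.sub_apply, AddMonoidHom.nsmul_apply,
        op_apply_eq_two_smul hφ hq hQ hodd hB ℓ hℓN hℓq (g i) (hg i) ((hdvd i).trans hc₀ℓ) m
          (hpow i) hpm, sub_self])
    exact sub_eq_zero.mp this
  exact ⟨key φ₁ h₁ hQ₁, key φ₂ h₂ hQ₂⟩

end Fermat.Agent.S41.IH
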