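import Fermat.Agent.S41.Defs

/-!
# S41, module I, file 1: first columns

* `colVal φ a c` does not depend on the matrix with first column `(a, c)`, only on `a mod c`.
* first columns of the cocycles of the correspondence `T_ℓ` (`GR.B.repsT`).
-/

set_option autoImplicit false

open CongruenceSubgroup Matrix.SpecialLinearGroup
open scoped MatrixGroups

namespace Fermat.Agent.S41.IH

open Fermat.Agent.GR.B Fermat.Agent.S41

variable {N : ℕ} {B : Type*} [AddCommGroup B]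

/-! ### helpers -/

/-- the matrix `[[a, b], [c, d]]` of determinant one. -/
def Col_mk (a b c d : ℤ) (h : a * d - b * c = 1) : SL(2, ℤ) :=
  ⟨!![a, b; c, d], by rw [Matrix.det_fin_two_of]; exact h⟩

@[simp] theorem Col_mk_00 (a b c d : ℤ) (h : a * d - b * c = 1) : (Col_mk a b c d h) 0 0 = a := rfl
@[simp] theorem Col_mk_01 (a b c d : ℤ) (h : a * d - b * c = 1) : (Col_mk a b c d h) 0 1 = b := rfl
@[simp] theorem Col_mk_10 (a b c d : ℤ) (h : a * d - b * c = 1) : (Col_mk a b c d h) 1 0 = c := rfl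
@[simp] theorem Col_mk_11 (a b c d : ℤ) (h : a * d - b * c = 1) : (Col_mk a b c d h) 1 1 = d := rfl

theorem Col_det (g : SL(2, ℤ)) : g 0 0 * g 1 1 - g 0 1 * g 1 0 = 1 := by
  have := g.det_coe
  rwa [Matrix.det_fin_two] at this

theorem Col_inv_apply (g : SL(2, ℤ)) :
    g⁻¹ 0 0 = g 1 1 ∧ g⁻¹ 0 1 = - g 0 1 ∧ g⁻¹ 1 0 = - g 1 0 ∧ g⁻¹ 1 1 = g 0 0 := by
  rw [Matrix.SpecialLinearGroup.SL2_inv_expl]
  exact ⟨rfl, rfl, rfl, rfl⟩

/-- the element `[[a, b], [c, d]]` of `Γ₀(N)`. -/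
def Col_mk0 (a b c d : ℤ) (h : a * d - b * c = 1) (hN : (N : ℤ) ∣ c) : Gamma0 N :=
  ⟨Col_mk a b c d h, mem_Gamma0_of_dvd hN⟩

theorem Col_map_mul (φ : Additive (Gamma0 N) →+ B) (γ γ' : Gamma0 N) :
    φ (Additive.ofMul (γ * γ')) = φ (Additive.ofMul γ) + φ (Additive.ofMul γ') := by
  rw [ofMul_mul, map_add]

theorem Col_kills_of_trace {φ : Additive (Gamma0 N) →+ B} (hφ : Kills φ) (γ : Gamma0 N)
    (h : (γ : SL(2, ℤ)) 0 0 + (γ : SL(2, ℤ)) 1 1 = 2) : φ (Additive.ofMul γ) = 0 := by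
  apply hφ γ
  right
  rw [Matrix.trace_fin_two, h]
  norm_num

theorem Col_hasCol_mul {γ : Gamma0 N} {a c : ℤ} (h : HasCol γ a c) (δ : Gamma0 N) :
    HasCol (δ * γ) ((δ : SL(2, ℤ)) 0 0 * a + (δ : SL(2, ℤ)) 0 1 * c)
      ((δ : SL(2, ℤ)) 1 0 * a + (δ : SL(2, ℤ)) 1 1 * c) := by
  constructor
  · rw [Subgroup.coe_mul, sl2_mul_apply, h.1, h.2]
  · rw [Subgroup.coe_mul, sl2_mul_apply, h.1, h.2]

/-- two matrices with the same first column. -/
theorem Col_eq_of_same {φ : Additive (Gamma0 N) →+ B} (hφ : Kills φ) {γ γ' : Gamma0 N} {a c : ℤ}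
    (h : HasCol γ a c) (h' : HasCol γ' a c) :
    φ (Additive.ofMul γ') = φ (Additive.ofMul γ) := by
  have h1 : γ' = γ * (γ⁻¹ * γ') := by group
  have hdet := Col_det (γ : SL(2, ℤ))
  obtain ⟨i00, i01, i10, i11⟩ := Col_inv_apply (γ : SL(2, ℤ))
  have e00 : ((γ⁻¹ * γ' : Gamma0 N) : SL(2, ℤ)) 0 0 = 1 := by
    rw [Subgroup.coe_mul, Subgroup.coe_inv, sl2_mul_apply, i00, i01, h'.1, h'.2]
    rw [h.1, h.2] at hdet
    linarith
  have e10 : ((γ⁻¹ * γ' : Gamma0 N) : SL(2, ℤ)) 1 0 = 0 := by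
    rw [Subgroup.coe_mul, Subgroup.coe_inv, sl2_mul_apply, i10, i11, h'.1, h'.2, h.1, h.2]
    ring
  have e11 : ((γ⁻¹ * γ' : Gamma0 N) : SL(2, ℤ)) 1 1 = 1 := by
    have := Col_det ((γ⁻¹ * γ' : Gamma0 N) : SL(2, ℤ))
    rw [e00, e10] at this
    linarith
  rw [h1, Col_map_mul, Col_kills_of_trace hφ (γ⁻¹ * γ') (by rw [e00, e11]; norm_num), add_zero]

theorem Col_colVal_of_not_exists (φ : Additive (Gamma0 N) →+ B) {a c : ℤ}
    (h : ¬ ∃ γ : Gamma0 N, HasCol γ a c) : colVal φ a c = 0 := dif_neg h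

/-! ### existence of matrices with a given first column -/

theorem hasCol_isCoprime {γ : Gamma0 N} {a c : ℤ} (h : HasCol γ a c) : IsCoprime a c := by
  have hdet := Col_det (γ : SL(2, ℤ))
  rw [h.1, h.2] at hdet
  exact ⟨(γ : SL(2, ℤ)) 1 1, - (γ : SL(2, ℤ)) 0 1, by linarith⟩

theorem hasCol_dvd {γ : Gamma0 N} {a c : ℤ} (h : HasCol γ a c) : (N : ℤ) ∣ c := by
  rw [← h.2]
  exact dvd_of_mem_Gamma0 γ

theorem exists_hasCol {a c : ℤ} (hN : (N : ℤ) ∣ c) (h : IsCoprime a c) :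
    ∃ γ : Gamma0 N, HasCol γ a c := by
  obtain ⟨u, v, huv⟩ := h
  exact ⟨Col_mk0 a (-v) c u (by linarith) hN, rfl, rfl⟩

/-! ### `colVal` -/

/-- two matrices with the same lower left entry `c` and upper left entries congruent mod `c`
differ by upper unipotent matrices on both sides. -/
theorem eq_of_col {φ : Additive (Gamma0 N) →+ B} (hφ : Kills φ) {γ γ' : Gamma0 N} {a a' c : ℤ}
    (h : HasCol γ a c) (h' : HasCol γ' a' c) (hc : c ∣ a' - a) :
    φ (Additive.ofMul γ') = φ (Additive.ofMul γ) := by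
  obtain ⟨x, hx⟩ := hc
  let n : Gamma0 N := Col_mk0 1 x 0 1 (by ring) (dvd_zero _)
  have h1 : HasCol (n * γ) a' c := by
    have := Col_hasCol_mul h n
    have e1 : (n : SL(2, ℤ)) 0 0 * a + (n : SL(2, ℤ)) 0 1 * c = a' := by
      change 1 * a + x * c = a'
      linarith
    have e2 : (n : SL(2, ℤ)) 1 0 * a + (n : SL(2, ℤ)) 1 1 * c = c := by
      change 0 * a + 1 * c = c
      ring
    rwa [e1, e2] at this
  rw [Col_eq_of_same hφ h1 h', Col_map_mul, Col_kills_of_trace hφ n (by change (1 : ℤ) + 1 = 2; norm_num),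
    zero_add]

theorem colVal_eq {φ : Additive (Gamma0 N) →+ B} (hφ : Kills φ) {γ : Gamma0 N} {a c : ℤ}
    (h : HasCol γ a c) : colVal φ a c = φ (Additive.ofMul γ) := by
  have hex : ∃ γ : Gamma0 N, HasCol γ a c := ⟨γ, h⟩
  unfold colVal
  rw [dif_pos hex]
  exact Col_eq_of_same hφ h hex.choose_spec

theorem Col_exists_congr {a a' c : ℤ} (hc : c ∣ a' - a) (h : ∃ γ : Gamma0 N, HasCol γ a c) :
    ∃ γ : Gamma0 N, HasCol γ a' c := by
  obtain ⟨γ, hγ⟩ := h
  obtain ⟨x, hx⟩ := hc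
  refine exists_hasCol (hasCol_dvd hγ) ?_
  have : a' = a + c * x := by linarith
  rw [this]
  exact (hasCol_isCoprime hγ).add_mul_left_left x

theorem colVal_congr {φ : Additive (Gamma0 N) →+ B} (hφ : Kills φ) {a a' c : ℤ}
    (hc : c ∣ a' - a) : colVal φ a' c = colVal φ a c := by
  by_cases hex : ∃ γ : Gamma0 N, HasCol γ a c
  · obtain ⟨γ', hγ'⟩ := Col_exists_congr hc hex
    obtain ⟨γ, hγ⟩ := hex
    rw [colVal_eq hφ hγ, colVal_eq hφ hγ']
    exact eq_of_col hφ hγ hγ' hc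
  · have hex' : ¬ ∃ γ : Gamma0 N, HasCol γ a' c := by
      intro h
      apply hex
      refine Col_exists_congr ?_ h
      rw [← neg_sub]
      exact (dvd_neg).2 hc
    rw [Col_colVal_of_not_exists φ hex, Col_colVal_of_not_exists φ hex']

/-- `-1` as an element of `Γ₀(N)`. -/
def Col_negOne : Gamma0 N := Col_mk0 (-1) 0 0 (-1) (by ring) (dvd_zero _)

theorem Col_negOne_kills {φ : Additive (Gamma0 N) →+ B} (hφ : Kills φ) :
    φ (Additive.ofMul (Col_negOne : Gamma0 N)) = 0 := by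
  apply hφ
  left
  rw [isOfFinOrder_iff_pow_eq_one]
  refine ⟨2, by norm_num, ?_⟩
  rw [pow_two]
  apply Matrix.SpecialLinearGroup.ext
  intro i j
  rw [sl2_mul_apply]
  fin_cases i <;> fin_cases j <;> simp [Col_negOne, Col_mk0]

theorem Col_hasCol_neg {γ : Gamma0 N} {a c : ℤ} (h : HasCol γ a c) :
    HasCol (Col_negOne * γ) (-a) (-c) := by
  have := Col_hasCol_mul h (Col_negOne : Gamma0 N)
  have e1 : ((Col_negOne : Gamma0 N) : SL(2, ℤ)) 0 0 * a +
      ((Col_negOne : Gamma0 N) : SL(2, ℤ)) 0 1 * c = -a := by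
    change (-1) * a + 0 * c = -a
    ring
  have e2 : ((Col_negOne : Gamma0 N) : SL(2, ℤ)) 1 0 * a +
      ((Col_negOne : Gamma0 N) : SL(2, ℤ)) 1 1 * c = -c := by
    change 0 * a + (-1) * c = -c
    ring
  rwa [e1, e2] at this

/-- `φ(-γ) = φ(γ)`. -/
theorem colVal_neg {φ : Additive (Gamma0 N) →+ B} (hφ : Kills φ) (a c : ℤ) :
    colVal φ (-a) (-c) = colVal φ a c := by
  by_cases hex : ∃ γ : Gamma0 N, HasCol γ a c
  · obtain ⟨γ, hγ⟩ := hex
    rw [colVal_eq hφ hγ, colVal_eq hφ (Col_hasCol_neg hγ), Col_map_mul, Col_negOne_kills hφ,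
      zero_add]
  · have hex' : ¬ ∃ γ : Gamma0 N, HasCol γ (-a) (-c) := by
      rintro ⟨γ, hγ⟩
      apply hex
      have := Col_hasCol_neg hγ
      rw [neg_neg, neg_neg] at this
      exact ⟨_, this⟩
    rw [Col_colVal_of_not_exists φ hex, Col_colVal_of_not_exists φ hex']

theorem Col_hasCol_low {γ : Gamma0 N} {a c : ℤ} (h : HasCol γ a c) (k : ℤ) :
    HasCol ((Col_mk0 1 0 (k * N) 1 (by ring) (Dvd.intro_left _ rfl) : Gamma0 N) * γ) a
      (c + k * N * a) := by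
  have := Col_hasCol_mul h (Col_mk0 1 0 (k * N) 1 (by ring) (Dvd.intro_left _ rfl) : Gamma0 N)
  have e1 : ((Col_mk0 1 0 (k * N) 1 (by ring) (Dvd.intro_left _ rfl) : Gamma0 N) : SL(2, ℤ)) 0 0 * a +
      ((Col_mk0 1 0 (k * N) 1 (by ring) (Dvd.intro_left _ rfl) : Gamma0 N) : SL(2, ℤ)) 0 1 * c = a := by
    change 1 * a + 0 * c = a
    ring
  have e2 : ((Col_mk0 1 0 (k * N) 1 (by ring) (Dvd.intro_left _ rfl) : Gamma0 N) : SL(2, ℤ)) 1 0 * a +
      ((Col_mk0 1 0 (k * N) 1 (by ring) (Dvd.intro_left _ rfl) : Gamma0 N) : SL(2, ℤ)) 1 1 * c =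
        c + k * N * a := by
    change k * N * a + 1 * c = c + k * N * a
    ring
  rwa [e1, e2] at this

/-- left multiplication by `[[1,0],[kN,1]]`. -/
theorem colVal_add_low {φ : Additive (Gamma0 N) →+ B} (hφ : Kills φ) (a c k : ℤ) :
    colVal φ a (c + k * N * a) = colVal φ a c := by
  by_cases hex : ∃ γ : Gamma0 N, HasCol γ a c
  · obtain ⟨γ, hγ⟩ := hex
    rw [colVal_eq hφ hγ, colVal_eq hφ (Col_hasCol_low hγ k), Col_map_mul,
      Col_kills_of_trace hφ _ (by change (1 : ℤ) + 1 = 2; norm_num), zero_add]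
  · have hex' : ¬ ∃ γ : Gamma0 N, HasCol γ a (c + k * N * a) := by
      rintro ⟨γ, hγ⟩
      apply hex
      have := Col_hasCol_low hγ (-k)
      have e : c + k * N * a + -k * N * a = c := by ring
      rw [e] at this
      exact ⟨_, this⟩
    rw [Col_colVal_of_not_exists φ hex, Col_colVal_of_not_exists φ hex']

end Fermat.Agent.S41.IH
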