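import Fermat.Agent.S41.IH.Col

/-!
# S41, module I, file 1b: first columns of the cocycles of the correspondence `T_ℓ` (`GR.B.repsT`)
-/

set_option autoImplicit false

open CongruenceSubgroup Matrix.SpecialLinearGroup
open scoped MatrixGroups

namespace Fermat.Agent.S41.IH

open Fermat.Agent.GR.B Fermat.Agent.S41 OnePoint

variable {N : ℕ} {B : Type*} [AddCommGroup B]

/-! ### first columns of the cocycles of `T_ℓ`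

`α_i γ = coc γ i * α_{perm γ i}`; `α_j e₁ = e₁`, `α_∞ e₁ = ℓ e₁`; the first column of `coc γ i`
is primitive and integral, which decides whether `perm γ i = ∞`. -/

section repsT

variable (ℓ : ℕ) [Fact ℓ.Prime] (hℓN : ¬ ℓ ∣ N)

open OnePoint

open P2MW.S_ModularForm_heckeT_slash_eq_self_of_mem_Gamma0.ModularForm.HeckeSlashInvariance in
theorem ColT_ii (g g' : SL(2, ℤ))
    (hrel : heckeRep ℓ ∞ * mapGL ℝ g = mapGL ℝ g' * heckeRep ℓ ∞) :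
    g 0 0 = g' 0 0 ∧ g 1 0 = ℓ * g' 1 0 := by
  have hℓ0 : ℓ ≠ 0 := (Fact.out : ℓ.Prime).ne_zero
  have hℓ0' : (ℓ : ℤ) ≠ 0 := by exact_mod_cast hℓ0
  have h00 := congrArg (fun A : GL (Fin 2) ℝ => (A : Matrix (Fin 2) (Fin 2) ℝ) 0 0) hrel
  have h10 := congrArg (fun A : GL (Fin 2) ℝ => (A : Matrix (Fin 2) (Fin 2) ℝ) 1 0) hrel
  simp [Matrix.mul_apply, Fin.sum_univ_two, hℓ0, -ZMod.natCast_val] at h00 h10
  have h00' : (ℓ : ℤ) * g 0 0 = g' 0 0 * ℓ := by exact_mod_cast h00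
  have h10' : g 1 0 = g' 1 0 * ℓ := by exact_mod_cast h10
  exact ⟨mul_left_cancel₀ hℓ0' (by rw [h00', mul_comm]), by rw [h10', mul_comm]⟩

open P2MW.S_ModularForm_heckeT_slash_eq_self_of_mem_Gamma0.ModularForm.HeckeSlashInvariance in
theorem ColT_ic (j' : ZMod ℓ) (g g' : SL(2, ℤ))
    (hrel : heckeRep ℓ ∞ * mapGL ℝ g = mapGL ℝ g' * heckeRep ℓ (j' : OnePoint (ZMod ℓ))) :
    ℓ * g 0 0 = g' 0 0 ∧ g 1 0 = g' 1 0 := by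
  have hℓ0 : ℓ ≠ 0 := (Fact.out : ℓ.Prime).ne_zero
  have h00 := congrArg (fun A : GL (Fin 2) ℝ => (A : Matrix (Fin 2) (Fin 2) ℝ) 0 0) hrel
  have h10 := congrArg (fun A : GL (Fin 2) ℝ => (A : Matrix (Fin 2) (Fin 2) ℝ) 1 0) hrel
  simp [Matrix.mul_apply, Fin.sum_univ_two, hℓ0, -ZMod.natCast_val] at h00 h10
  exact ⟨by exact_mod_cast h00, h10⟩

open P2MW.S_ModularForm_heckeT_slash_eq_self_of_mem_Gamma0.ModularForm.HeckeSlashInvariance in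
theorem ColT_ci (j : ZMod ℓ) (g g' : SL(2, ℤ))
    (hrel : heckeRep ℓ (j : OnePoint (ZMod ℓ)) * mapGL ℝ g = mapGL ℝ g' * heckeRep ℓ ∞) :
    g 0 0 + (j.val : ℤ) * g 1 0 = ℓ * g' 0 0 ∧ g 1 0 = g' 1 0 := by
  have hℓ0 : ℓ ≠ 0 := (Fact.out : ℓ.Prime).ne_zero
  have hℓ0' : (ℓ : ℤ) ≠ 0 := by exact_mod_cast hℓ0
  have h00 := congrArg (fun A : GL (Fin 2) ℝ => (A : Matrix (Fin 2) (Fin 2) ℝ) 0 0) hrel
  have h10 := congrArg (fun A : GL (Fin 2) ℝ => (A : Matrix (Fin 2) (Fin 2) ℝ) 1 0) hrel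
  simp [Matrix.mul_apply, Fin.sum_univ_two, hℓ0, -ZMod.natCast_val] at h00 h10
  have h00' : g 0 0 + (j.val : ℤ) * g 1 0 = g' 0 0 * ℓ := by exact_mod_cast h00
  have h10' : (ℓ : ℤ) * g 1 0 = g' 1 0 * ℓ := by exact_mod_cast h10
  exact ⟨by rw [h00', mul_comm], mul_left_cancel₀ hℓ0' (by rw [h10', mul_comm])⟩

open P2MW.S_ModularForm_heckeT_slash_eq_self_of_mem_Gamma0.ModularForm.HeckeSlashInvariance in
theorem ColT_cc (j j' : ZMod ℓ) (g g' : SL(2, ℤ))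
    (hrel : heckeRep ℓ (j : OnePoint (ZMod ℓ)) * mapGL ℝ g =
      mapGL ℝ g' * heckeRep ℓ (j' : OnePoint (ZMod ℓ))) :
    g 0 0 + (j.val : ℤ) * g 1 0 = g' 0 0 ∧ ℓ * g 1 0 = g' 1 0 := by
  have hℓ0 : ℓ ≠ 0 := (Fact.out : ℓ.Prime).ne_zero
  have h00 := congrArg (fun A : GL (Fin 2) ℝ => (A : Matrix (Fin 2) (Fin 2) ℝ) 0 0) hrel
  have h10 := congrArg (fun A : GL (Fin 2) ℝ => (A : Matrix (Fin 2) (Fin 2) ℝ) 1 0) hrel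
  simp [Matrix.mul_apply, Fin.sum_univ_two, hℓ0, -ZMod.natCast_val] at h00 h10
  exact ⟨by exact_mod_cast h00, by exact_mod_cast h10⟩

/-- a primitive column is not divisible by `ℓ`. -/
theorem ColT_not_dvd {γ : Gamma0 N} {a c : ℤ} (h : HasCol γ a c) (ha : (ℓ : ℤ) ∣ a)
    (hc : (ℓ : ℤ) ∣ c) : False :=
  (Nat.prime_iff_prime_int.1 (Fact.out : ℓ.Prime)).not_isUnit
    ((hasCol_isCoprime h).isUnit_of_dvd' ha hc)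

open P2MW.S_ModularForm_heckeT_slash_eq_self_of_mem_Gamma0.ModularForm.HeckeSlashInvariance in
theorem ColT_rel (γ : Gamma0 N) (i i' : OnePoint (ZMod ℓ)) (hi : (repsT ℓ hℓN).perm γ i = i') :
    heckeRep ℓ i * mapGL ℝ (γ : SL(2, ℤ)) =
      mapGL ℝ (((repsT ℓ hℓN).coc γ i : Gamma0 N) : SL(2, ℤ)) * heckeRep ℓ i' := by
  have h := (repsT ℓ hℓN).rel γ i
  rw [hi] at h
  exact h

theorem repsT_col_infty_of_not_dvd {γ : Gamma0 N} {a c : ℤ} (h : HasCol γ a c)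
    (hc : ¬ (ℓ : ℤ) ∣ c) :
    (repsT ℓ hℓN).perm γ ∞ ≠ ∞ ∧ HasCol ((repsT ℓ hℓN).coc γ ∞) (ℓ * a) c := by
  obtain ⟨ha, hc'⟩ := h
  obtain ⟨i', hi'⟩ : ∃ i' : OnePoint (ZMod ℓ), (repsT ℓ hℓN).perm γ ∞ = i' := ⟨_, rfl⟩
  have hrel := ColT_rel ℓ hℓN γ ∞ i' hi'
  rw [hi']
  induction i' using OnePoint.rec with
  | infty =>
    obtain ⟨-, h2⟩ := ColT_ii ℓ _ _ hrel
    exact absurd ⟨_, hc' ▸ h2⟩ hc
  | coe j' =>
    obtain ⟨h1, h2⟩ := ColT_ic ℓ j' _ _ hrel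
    exact ⟨OnePoint.coe_ne_infty j', by rw [← h1, ha], by rw [← h2, hc']⟩

theorem repsT_col_infty_of_dvd {γ : Gamma0 N} {a c : ℤ} (h : HasCol γ a c)
    (hc : (ℓ : ℤ) ∣ c) :
    (repsT ℓ hℓN).perm γ ∞ = ∞ ∧ HasCol ((repsT ℓ hℓN).coc γ ∞) a (c / ℓ) := by
  have hℓ0' : (ℓ : ℤ) ≠ 0 := by exact_mod_cast (Fact.out : ℓ.Prime).ne_zero
  obtain ⟨ha, hc'⟩ := h
  obtain ⟨i', hi'⟩ : ∃ i' : OnePoint (ZMod ℓ), (repsT ℓ hℓN).perm γ ∞ = i' := ⟨_, rfl⟩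
  have hrel := ColT_rel ℓ hℓN γ ∞ i' hi'
  rw [hi']
  induction i' using OnePoint.rec with
  | infty =>
    obtain ⟨h1, h2⟩ := ColT_ii ℓ _ _ hrel
    refine ⟨rfl, by rw [← h1, ha], ?_⟩
    rw [← hc', h2, Int.mul_ediv_cancel_left _ hℓ0']
  | coe j' =>
    obtain ⟨h1, h2⟩ := ColT_ic ℓ j' _ _ hrel
    exact (ColT_not_dvd ℓ (γ := (repsT ℓ hℓN).coc γ ∞) ⟨rfl, rfl⟩ ⟨_, h1.symm⟩
      (by rw [← h2, hc']; exact hc)).elim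

theorem repsT_col_coe_of_dvd {γ : Gamma0 N} {a c : ℤ} (h : HasCol γ a c) (j : ZMod ℓ)
    (hj : (ℓ : ℤ) ∣ a + (j.val : ℤ) * c) :
    (repsT ℓ hℓN).perm γ (j : OnePoint (ZMod ℓ)) = ∞ ∧
      HasCol ((repsT ℓ hℓN).coc γ (j : OnePoint (ZMod ℓ))) ((a + (j.val : ℤ) * c) / ℓ) c := by
  have hℓ0' : (ℓ : ℤ) ≠ 0 := by exact_mod_cast (Fact.out : ℓ.Prime).ne_zero
  obtain ⟨ha, hc'⟩ := h
  obtain ⟨i', hi'⟩ : ∃ i' : OnePoint (ZMod ℓ),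
    (repsT ℓ hℓN).perm γ (j : OnePoint (ZMod ℓ)) = i' := ⟨_, rfl⟩
  have hrel := ColT_rel ℓ hℓN γ j i' hi'
  rw [hi']
  induction i' using OnePoint.rec with
  | infty =>
    obtain ⟨h1, h2⟩ := ColT_ci ℓ j _ _ hrel
    refine ⟨rfl, ?_, by rw [← h2, hc']⟩
    rw [← ha, ← hc', h1, Int.mul_ediv_cancel_left _ hℓ0']
  | coe j' =>
    obtain ⟨h1, h2⟩ := ColT_cc ℓ j j' _ _ hrel
    exact (ColT_not_dvd ℓ (γ := (repsT ℓ hℓN).coc γ (j : OnePoint (ZMod ℓ))) ⟨rfl, rfl⟩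
      (by rw [← h1, ha, hc']; exact hj) ⟨_, h2.symm⟩).elim

theorem repsT_col_coe_of_not_dvd {γ : Gamma0 N} {a c : ℤ} (h : HasCol γ a c) (j : ZMod ℓ)
    (hj : ¬ (ℓ : ℤ) ∣ a + (j.val : ℤ) * c) :
    (repsT ℓ hℓN).perm γ (j : OnePoint (ZMod ℓ)) ≠ ∞ ∧
      HasCol ((repsT ℓ hℓN).coc γ (j : OnePoint (ZMod ℓ))) (a + (j.val : ℤ) * c) (ℓ * c) := by
  obtain ⟨ha, hc'⟩ := h
  obtain ⟨i', hi'⟩ : ∃ i' : OnePoint (ZMod ℓ),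
    (repsT ℓ hℓN).perm γ (j : OnePoint (ZMod ℓ)) = i' := ⟨_, rfl⟩
  have hrel := ColT_rel ℓ hℓN γ j i' hi'
  rw [hi']
  induction i' using OnePoint.rec with
  | infty =>
    obtain ⟨h1, -⟩ := ColT_ci ℓ j _ _ hrel
    rw [ha, hc'] at h1
    exact absurd ⟨_, h1⟩ hj
  | coe j' =>
    obtain ⟨h1, h2⟩ := ColT_cc ℓ j j' _ _ hrel
    exact ⟨OnePoint.coe_ne_infty j', by rw [← h1, ha, hc'], by rw [← h2, hc']⟩

/-- for `γ ∈ Γ₀(Nℓ)` the cocycle at `∞` is conjugation by `diag(ℓ, 1)`. -/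
theorem repsT_coc_infty_inclQ (γ : Gamma0 (N * ℓ)) :
    (repsT ℓ hℓN).perm (inclQ N ℓ γ) ∞ = ∞ ∧
      (repsT ℓ hℓN).coc (inclQ N ℓ γ) ∞ = conjQ N ℓ γ := by
  have hℓ0 : ℓ ≠ 0 := (Fact.out : ℓ.Prime).ne_zero
  have hdvd : (ℓ : ℤ) ∣ (γ : SL(2, ℤ)) 1 0 := dvd_of_mem_Gamma0_mul γ
  obtain ⟨hperm, -⟩ := repsT_col_infty_of_dvd ℓ hℓN (γ := inclQ N ℓ γ) ⟨rfl, rfl⟩ hdvd
  refine ⟨hperm, ?_⟩
  have hrel := ColT_rel ℓ hℓN (inclQ N ℓ γ) ∞ ∞ hperm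
  rw [coe_inclQ] at hrel
  have hconj : P2MW.S_ModularForm_heckeT_slash_eq_self_of_mem_Gamma0.ModularForm.HeckeSlashInvariance.heckeRep
      ℓ ∞ * mapGL ℝ (γ : SL(2, ℤ)) =
      mapGL ℝ ((conjQ N ℓ γ : Gamma0 N) : SL(2, ℤ)) *
        P2MW.S_ModularForm_heckeT_slash_eq_self_of_mem_Gamma0.ModularForm.HeckeSlashInvariance.heckeRep
          ℓ ∞ := by
    obtain ⟨e, he⟩ := hdvd
    have hℓ0' : (ℓ : ℤ) ≠ 0 := by exact_mod_cast hℓ0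
    have h1 : ((conjQ N ℓ γ : Gamma0 N) : SL(2, ℤ)) 1 0 = e := by
      show (γ : SL(2, ℤ)) 1 0 / (ℓ : ℤ) = e
      rw [he, Int.mul_ediv_cancel_left _ hℓ0']
    have h2 : ((conjQ N ℓ γ : Gamma0 N) : SL(2, ℤ)) 0 0 = (γ : SL(2, ℤ)) 0 0 := rfl
    have h3 : ((conjQ N ℓ γ : Gamma0 N) : SL(2, ℤ)) 0 1 = ℓ * (γ : SL(2, ℤ)) 0 1 := rfl
    have h4 : ((conjQ N ℓ γ : Gamma0 N) : SL(2, ℤ)) 1 1 = (γ : SL(2, ℤ)) 1 1 := rfl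
    ext i k
    fin_cases i <;> fin_cases k <;>
      simp [Matrix.mul_apply, Fin.sum_univ_two, hℓ0, h1, h2, h3, h4, he,
        P2MW.S_ModularForm_heckeT_slash_eq_self_of_mem_Gamma0.ModularForm.HeckeSlashInvariance.heckeRep_infty] <;>
      ring
  rw [hconj] at hrel
  exact (Subtype.ext (mapGL_injective (mul_right_cancel hrel))).symm

end repsT

end Fermat.Agent.S41.IH
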