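import Fermat.Agent.S41.IH.Shapiro

/-!
# S41, module I, file 3b: the kernel relation

`(φ₁, φ₂) ∈ ker(res₁ + res₂)`.  The function `c(γ, i) = φ₁(γ) + φ₂(coc γ i)` on
`Γ₀(N) × P¹(𝔽_q)` (`coc`, `perm` of `repsT q`) is a cocycle: `c(γγ', i) = c(γ, i) + c(γ', perm γ i)`,
and it vanishes for `i = ∞`, `γ ∈ Γ₀(Nq)` = stabiliser of `∞`.  So it is a coboundary
`lam (perm γ i) - lam i`; `γ = [[1,1],[0,1]]` shows that `lam` is constant on the finite points.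
Reading first columns gives, for `q ∤ c`:
`F¹_c(a) + F²_c(q a) = -κ₀`, `F¹_c(a) + F²_c(a / q) = κ₀`.
-/

set_option autoImplicit false

open CongruenceSubgroup Matrix.SpecialLinearGroup
open scoped MatrixGroups

namespace Fermat.Agent.S41.IH

open Fermat.Agent.GR.B Fermat.Agent.S41 OnePoint
open P2MW.S_ModularForm_heckeT_slash_eq_self_of_mem_Gamma0.ModularForm.HeckeSlashInvariance

variable {N : ℕ} {B : Type*} [AddCommGroup B] {q : ℕ} [Fact q.Prime] (hqN : ¬ q ∣ N)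

local instance : NeZero q := ⟨(Fact.out : q.Prime).ne_zero⟩

/-- `[[1,k],[0,1]]` as an element of `Γ₀(N)`. -/
def Kernel_T (N : ℕ) (k : ℤ) : Gamma0 N :=
  ⟨⟨!![1, k; 0, 1], by simp [Matrix.det_fin_two_of]⟩, mem_Gamma0_of_dvd (by simp)⟩

theorem Kernel_T_hasCol (N : ℕ) (k : ℤ) : HasCol (Kernel_T N k) 1 0 := ⟨rfl, rfl⟩

theorem Kernel_one_hasCol (N : ℕ) : HasCol (1 : Gamma0 N) 1 0 := ⟨rfl, rfl⟩

theorem Kernel_eq_zero_of_hasCol {φ : Additive (Gamma0 N) →+ B} (hφ : Kills φ) {γ : Gamma0 N}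
    (h : HasCol γ 1 0) : φ (Additive.ofMul γ) = 0 := by
  rw [eq_of_col hφ (Kernel_one_hasCol N) h (by simp)]
  exact map_zero φ

theorem Kernel_perm_T (j : ZMod q) :
    (repsT q hqN).perm (Kernel_T N (j.val : ℤ)) ((0 : ZMod q) : OnePoint (ZMod q)) =
      (j : OnePoint (ZMod q)) := by
  show redMatrix q ((Kernel_T N (j.val : ℤ) : Gamma0 N) : SL(2, ℤ)) •
    ((0 : ZMod q) : OnePoint (ZMod q)) = _
  rw [OnePoint.smul_some_eq_ite]
  have h00 : redMatrix q ((Kernel_T N (j.val : ℤ) : Gamma0 N) : SL(2, ℤ)) 0 1 = j := by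
    rw [redMatrix_apply_zero_one]
    show (((j.val : ℤ) : ℤ) : ZMod q) = j
    simp
  have h11 : redMatrix q ((Kernel_T N (j.val : ℤ) : Gamma0 N) : SL(2, ℤ)) 1 1 = 1 := by
    rw [redMatrix_apply_one_one]
    show ((1 : ℤ) : ZMod q) = 1
    simp
  rw [h00, h11]
  simp

/-- `lam` is constant on the finite points (use `γ = [[1,1],[0,1]]`: first columns `(1, 0)`). -/
theorem lam_coe_eq {φ₁ φ₂ : Additive (Gamma0 N) →+ B} (h₁ : Kills φ₁) (h₂ : Kills φ₂)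
    {lam : OnePoint (ZMod q) → B}
    (hlam : ∀ (γ : Gamma0 N) (i : OnePoint (ZMod q)),
      φ₁ (Additive.ofMul γ) + φ₂ (Additive.ofMul ((repsT q hqN).coc γ i)) =
        lam ((repsT q hqN).perm γ i) - lam i) (j : ZMod q) :
    lam (j : OnePoint (ZMod q)) = lam ((0 : ZMod q) : OnePoint (ZMod q)) := by
  have h := hlam (Kernel_T N (j.val : ℤ)) ((0 : ZMod q) : OnePoint (ZMod q))
  have hq1 : ¬ (q : ℤ) ∣ 1 + (((0 : ZMod q).val : ℕ) : ℤ) * 0 := by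
    rw [mul_zero, add_zero]
    intro hd
    have h1 := Int.eq_one_of_dvd_one (Int.natCast_nonneg q) hd
    exact (Fact.out : q.Prime).one_lt.ne' (by exact_mod_cast h1)
  have hcol := (repsT_col_coe_of_not_dvd q hqN (Kernel_T_hasCol N (j.val : ℤ)) (0 : ZMod q) hq1).2
  rw [mul_zero, mul_zero, add_zero] at hcol
  rw [Kernel_eq_zero_of_hasCol h₁ (Kernel_T_hasCol N _), Kernel_eq_zero_of_hasCol h₂ hcol,
    Kernel_perm_T hqN j, add_zero] at h
  exact (sub_eq_zero.mp h.symm)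

include hqN in
/-- the two relations between `F¹` and `F²`. -/
theorem exists_kappa {φ₁ φ₂ : Additive (Gamma0 N) →+ B} (h₁ : Kills φ₁) (h₂ : Kills φ₂)
    (hker : InKer q φ₁ φ₂) :
    ∃ κ₀ : B, ∀ a c : ℤ, (N : ℤ) ∣ c → IsCoprime a c → ¬ (q : ℤ) ∣ c →
      colVal φ₁ a c + colVal φ₂ (q * a) c = -κ₀ ∧
      colVal φ₁ (q * a) c + colVal φ₂ a c = κ₀ := by
  obtain ⟨lam, hlam⟩ := exists_lam hqN hker
  have hq : Prime (q : ℤ) := Nat.prime_iff_prime_int.mp (Fact.out : q.Prime)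
  have hq0 : (q : ℤ) ≠ 0 := hq.ne_zero
  refine ⟨lam ∞ - lam ((0 : ZMod q) : OnePoint (ZMod q)), fun a c hN hac hqc => ⟨?_, ?_⟩⟩
  · obtain ⟨γ, hγ⟩ := exists_hasCol hN hac
    obtain ⟨hperm, hcol⟩ := repsT_col_infty_of_not_dvd q hqN hγ hqc
    have h := hlam γ ∞
    obtain ⟨j, hj⟩ := OnePoint.ne_infty_iff_exists.mp hperm
    rw [← hj, lam_coe_eq hqN h₁ h₂ hlam j] at h
    rw [colVal_eq h₁ hγ, colVal_eq h₂ hcol, h, neg_sub]
  · have hcop : IsCoprime ((q : ℤ) * a) c :=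
      IsCoprime.mul_left ((Prime.coprime_iff_not_dvd hq).mpr hqc) hac
    obtain ⟨γ, hγ⟩ := exists_hasCol hN hcop
    have hd : (q : ℤ) ∣ (q : ℤ) * a + (((0 : ZMod q).val : ℕ) : ℤ) * c := by
      rw [ZMod.val_zero, Nat.cast_zero, zero_mul, add_zero]
      exact dvd_mul_right _ _
    obtain ⟨hperm, hcol⟩ := repsT_col_coe_of_dvd q hqN hγ (0 : ZMod q) hd
    rw [ZMod.val_zero, Nat.cast_zero, zero_mul, add_zero, Int.mul_ediv_cancel_left _ hq0] at hcol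
    have h := hlam γ ((0 : ZMod q) : OnePoint (ZMod q))
    rw [hperm] at h
    rw [colVal_eq h₁ hγ, colVal_eq h₂ hcol, h]

include hqN in
theorem qInv_of_inKer {φ₁ φ₂ : Additive (Gamma0 N) →+ B} (h₁ : Kills φ₁) (h₂ : Kills φ₂)
    (hker : InKer q φ₁ φ₂) : QInv q φ₁ ∧ QInv q φ₂ := by
  obtain ⟨κ₀, hκ⟩ := exists_kappa hqN h₁ h₂ hker
  have hq : Prime (q : ℤ) := Nat.prime_iff_prime_int.mp (Fact.out : q.Prime)
  refine ⟨⟨κ₀ + κ₀, fun a c hN hac hqc => ?_⟩, ⟨-κ₀ - κ₀, fun a c hN hac hqc => ?_⟩⟩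
  · have hcop : IsCoprime ((q : ℤ) * a) c :=
      IsCoprime.mul_left ((Prime.coprime_iff_not_dvd hq).mpr hqc) hac
    have e1 := (hκ a c hN hac hqc).1
    have e2 := (hκ ((q : ℤ) * a) c hN hcop hqc).2
    rw [show (q : ℤ) ^ 2 * a = (q : ℤ) * ((q : ℤ) * a) by ring, eq_sub_of_add_eq e2,
      eq_sub_of_add_eq e1]
    abel
  · have hcop : IsCoprime ((q : ℤ) * a) c :=
      IsCoprime.mul_left ((Prime.coprime_iff_not_dvd hq).mpr hqc) hac
    have e1 := (hκ ((q : ℤ) * a) c hN hcop hqc).1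
    have e2 := (hκ a c hN hac hqc).2
    rw [show (q : ℤ) ^ 2 * a = (q : ℤ) * ((q : ℤ) * a) by ring, eq_sub_of_add_eq' e1,
      eq_sub_of_add_eq' e2]
    abel

end Fermat.Agent.S41.IH
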