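import Fermat.Agent.S41.IH.ColT

/-!
# S41, module I, file 3a: the kernel relation (explicit Shapiro lemma)

`(φ₁, φ₂) ∈ ker(res₁ + res₂)`.  The function `c(γ, i) = φ₁(γ) + φ₂(coc γ i)` on
`Γ₀(N) × P¹(𝔽_q)` (`coc`, `perm` of `repsT q`) is a cocycle: `c(γγ', i) = c(γ, i) + c(γ', perm γ i)`,
and it vanishes for `i = ∞`, `γ ∈ Γ₀(Nq)` = stabiliser of `∞`.  So it is a coboundary
`lam (perm γ i) - lam i`; `γ = [[1,1],[0,1]]` shows that `lam` is constant on the finite points.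
Reading first columns gives, for `q ∤ c`:
`F¹_c(a) + F²_c(q a) = -κ₀`, `F¹_c(a) + F²_c(a / q) = κ₀`.
-/

set_option autoImplicit false

open CongruenceSubgroup Matrix.SpecialLinearGroup
open scoped MatrixGroups

namespace Fermat.Agent.S41.IH

open Fermat.Agent.GR.B Fermat.Agent.S41 OnePoint
open P2MW.S_ModularForm_heckeT_slash_eq_self_of_mem_Gamma0.ModularForm.HeckeSlashInvariance

variable {N : ℕ} {B : Type*} [AddCommGroup B] {q : ℕ} [Fact q.Prime] (hqN : ¬ q ∣ N)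

local instance : NeZero q := ⟨(Fact.out : q.Prime).ne_zero⟩

omit [Fact q.Prime] in
theorem Shapiro_perm_one (H : Reps N) (i : H.ι) : H.perm 1 i = i := by
  have h := H.perm_mul 1 1 i
  rw [mul_one] at h
  exact (H.perm 1).injective h.symm

omit [Fact q.Prime] in
/-- a cocycle on a transitive `Γ₀(N)`-set which vanishes on the stabiliser of a point is a
coboundary. -/
theorem Shapiro_abstract (H : Reps N) (o : H.ι) (c : Gamma0 N → H.ι → B)
    (hcoc : ∀ γ γ' i, c (γ * γ') i = c γ i + c γ' (H.perm γ i))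
    (htrans : ∀ i, ∃ γ, H.perm γ o = i)
    (hvan : ∀ γ, H.perm γ o = o → c γ o = 0) :
    ∃ lam : H.ι → B, ∀ γ i, c γ i = lam (H.perm γ i) - lam i := by
  choose Γ hΓ using htrans
  have hwd : ∀ (γ : Gamma0 N) (i : H.ι), H.perm γ o = i → c γ o = c (Γ i) o := by
    intro γ i hγ
    have hs : H.perm (γ * (Γ i)⁻¹) o = o := by
      have h0 : H.perm (Γ i)⁻¹ (H.perm (Γ i) o) = o := by
        rw [← H.perm_mul, mul_inv_cancel]
        exact Shapiro_perm_one H o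
      rw [H.perm_mul, hγ]
      rw [hΓ i] at h0
      exact h0
    have h1 := hcoc (γ * (Γ i)⁻¹) (Γ i) o
    rw [inv_mul_cancel_right, hvan _ hs, hs, zero_add] at h1
    exact h1
  refine ⟨fun i => c (Γ i) o, fun γ i => ?_⟩
  have h1 := hcoc (Γ i) γ o
  rw [hΓ i] at h1
  have h2 := hwd (Γ i * γ) (H.perm γ i) (by rw [H.perm_mul, hΓ i])
  show c γ i = c (Γ (H.perm γ i)) o - c (Γ i) o
  rw [← h2, h1]
  abel

/-- the action of `Γ₀(N)` on `P¹(𝔽_q)` is transitive. -/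
theorem exists_perm_infty_eq (i : OnePoint (ZMod q)) :
    ∃ γ : Gamma0 N, (repsT q hqN).perm γ ∞ = i := by
  have hN0 : (N : ZMod q) ≠ 0 := by
    intro h
    exact hqN ((ZMod.natCast_eq_zero_iff N q).1 h)
  induction i using OnePoint.rec with
  | infty =>
    refine ⟨1, ?_⟩
    show (redMatrix q ((1 : Gamma0 N) : SL(2, ℤ)) • (∞ : OnePoint (ZMod q)) : OnePoint (ZMod q)) = ∞
    rw [OnePoint.smul_infty_eq_self_iff, redMatrix_apply_one_zero]
    simp
  | coe j =>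
    obtain ⟨k, hk⟩ : ∃ k : ℤ, (k : ZMod q) = j - (N : ZMod q)⁻¹ :=
      ⟨((j - (N : ZMod q)⁻¹).val : ℤ), by simp⟩
    let g : SL(2, ℤ) := ⟨!![1, k; (N : ℤ), N * k + 1], by
      rw [Matrix.det_fin_two_of]
      ring⟩
    have hg : g ∈ Gamma0 N := mem_Gamma0_of_dvd (by
      show (N : ℤ) ∣ (N : ℤ)
      exact dvd_rfl)
    refine ⟨⟨g, hg⟩, ?_⟩
    show (redMatrix q g • (∞ : OnePoint (ZMod q)) : OnePoint (ZMod q)) = (j : OnePoint (ZMod q))
    rw [OnePoint.smul_infty_eq_ite, redMatrix_apply_one_zero, redMatrix_apply_zero_zero]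
    have h10 : (((g 1 0 : ℤ)) : ZMod q) = (N : ZMod q) := by
      show (((N : ℤ) : ℤ) : ZMod q) = _
      simp
    have h11 : (((g 1 1 : ℤ)) : ZMod q) = (N : ZMod q) * (j - (N : ZMod q)⁻¹) + 1 := by
      show (((N : ℤ) * k + 1 : ℤ) : ZMod q) = _
      push_cast
      rw [hk]
    rw [h10, h11, if_neg hN0]
    congr 1
    field_simp
    ring

/-- the stabiliser of `∞` is `Γ₀(Nq)`. -/
theorem exists_inclQ_eq_of_perm_infty {γ : Gamma0 N} (h : (repsT q hqN).perm γ ∞ = ∞) :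
    ∃ γ' : Gamma0 (N * q), inclQ N q γ' = γ := by
  have hq : (q : ℤ) ∣ (γ : SL(2, ℤ)) 1 0 := by
    by_contra hc
    exact (repsT_col_infty_of_not_dvd q hqN (γ := γ) ⟨rfl, rfl⟩ hc).1 h
  have hN : (N : ℤ) ∣ (γ : SL(2, ℤ)) 1 0 := dvd_of_mem_Gamma0 γ
  have hcop : IsCoprime (N : ℤ) (q : ℤ) := by
    rw [Nat.isCoprime_iff_coprime]
    exact (((Nat.Prime.coprime_iff_not_dvd (Fact.out : q.Prime)).2 hqN)).symm
  have hNq : ((N * q : ℕ) : ℤ) ∣ (γ : SL(2, ℤ)) 1 0 := by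
    push_cast
    exact hcop.mul_dvd hN hq
  exact ⟨⟨(γ : SL(2, ℤ)), mem_Gamma0_of_dvd hNq⟩, Subtype.ext rfl⟩

/-- explicit Shapiro lemma. -/
theorem exists_lam {φ₁ φ₂ : Additive (Gamma0 N) →+ B} (hker : InKer q φ₁ φ₂) :
    ∃ lam : OnePoint (ZMod q) → B, ∀ (γ : Gamma0 N) (i : OnePoint (ZMod q)),
      φ₁ (Additive.ofMul γ) + φ₂ (Additive.ofMul ((repsT q hqN).coc γ i)) =
        lam ((repsT q hqN).perm γ i) - lam i := by
  refine Shapiro_abstract (repsT q hqN) (∞ : OnePoint (ZMod q))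
    (fun γ i => φ₁ (Additive.ofMul γ) + φ₂ (Additive.ofMul ((repsT q hqN).coc γ i))) ?_
    (exists_perm_infty_eq hqN) ?_
  · intro γ γ' i
    show φ₁ (Additive.ofMul (γ * γ')) + φ₂ (Additive.ofMul ((repsT q hqN).coc (γ * γ') i)) =
      φ₁ (Additive.ofMul γ) + φ₂ (Additive.ofMul ((repsT q hqN).coc γ i)) +
        (φ₁ (Additive.ofMul γ') +
          φ₂ (Additive.ofMul ((repsT q hqN).coc γ' ((repsT q hqN).perm γ i))))
    rw [(repsT q hqN).coc_mul, ofMul_mul, ofMul_mul, map_add, map_add]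
    abel
  · intro γ hγ
    obtain ⟨γ', rfl⟩ := exists_inclQ_eq_of_perm_infty hqN hγ
    show φ₁ (Additive.ofMul (inclQ N q γ')) +
      φ₂ (Additive.ofMul ((repsT q hqN).coc (inclQ N q γ') ∞)) = 0
    rw [(repsT_coc_infty_inclQ q hqN γ').2]
    exact hker γ'

end Fermat.Agent.S41.IH
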